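/-
Fermat/Agent/T1B/Alg15/Factor.lean  (helper15) -- programme T1B, brick T-ALG, part ALG-a (2/3).
Mathlib only.

**Hensel / Weierstrass factorisation of polynomials over a complete local ring.**
`O` complete local, `Q ∈ O[X]` with `Q ≡ X ^ a` modulo `m O[X]`.  Then `Q = Q0 * Qi` with
`Q0` monic of degree `a`, `Q0 ≡ X ^ a` and `Qi ≡ 1` modulo `m O[X]`; moreover `(Q0, Qi) = (1)`.

* `sub_mem_map_C_iff`   : `p - q ∈ m O[X] ↔ p mod m = q mod m`;
* `exists_factor`       : the factorisation (from Mathlib's Weierstrass preparation theorem and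
                          uniqueness of Weierstrass division);
* `span_sup_span_eq_top`: `(P) + (U) = (1)` for `P` monic and `U ≡ 1` modulo `m` (Nakayama);
* `exists_mul_X_sub_one`: `U ≡ 1` mod `m` ⟹ `X` is invertible modulo `U`.
-/
import Mathlib

set_option autoImplicit false

open Polynomial IsLocalRing

namespace Fermat.Agent.T1B.Alg15

section Factor

variable {O : Type*} [CommRing O] [IsLocalRing O]

/-- Congruence modulo `m O[X]` is equality of the reductions. -/
theorem sub_mem_map_C_iff (p q : O[X]) :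
    p - q ∈ (maximalIdeal O).map (C : O →+* O[X]) ↔
      p.map (residue O) = q.map (residue O) := by
  rw [← IsLocalRing.ker_residue, ← Polynomial.ker_mapRingHom, RingHom.sub_mem_ker_iff]
  rfl

theorem map_residue_eq_one {U : O[X]} (hU : U - 1 ∈ (maximalIdeal O).map (C : O →+* O[X])) :
    U.map (residue O) = 1 := by
  rw [sub_mem_map_C_iff] at hU
  rw [hU, Polynomial.map_one]

/-- A polynomial congruent to `1` has a unit constant coefficient. -/
theorem isUnit_coeff_zero {U : O[X]} (hU : U - 1 ∈ (maximalIdeal O).map (C : O →+* O[X])) :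
    IsUnit (U.coeff 0) := by
  have h1 := (Ideal.mem_map_C_iff.1 hU) 0
  rw [coeff_sub, coeff_one_zero] at h1
  by_contra h
  have h2 : U.coeff 0 ∈ maximalIdeal O := (mem_maximalIdeal _).2 h
  have h3 : (1 : O) ∈ maximalIdeal O := by
    have := Ideal.sub_mem _ h2 h1
    rwa [sub_sub_cancel] at this
  exact (Ideal.ne_top_iff_one _).1 (maximalIdeal.isMaximal O).ne_top h3

/-- If `U ≡ 1` modulo `m`, then `X` is invertible modulo `U`. -/
theorem exists_mul_X_sub_one {U : O[X]} (hU : U - 1 ∈ (maximalIdeal O).map (C : O →+* O[X])) :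
    ∃ g : O[X], g * X - 1 ∈ Ideal.span {U} := by
  obtain ⟨u, hu⟩ := isUnit_coeff_zero hU
  obtain ⟨g, hg⟩ := Polynomial.X_dvd_sub_C (p := U)
  refine ⟨-(C (↑u⁻¹ : O)) * g, ?_⟩
  rw [Ideal.mem_span_singleton]
  refine ⟨-(C (↑u⁻¹ : O)), ?_⟩
  have h1 : U = C (U.coeff 0) + X * g := by rw [← hg]; ring
  have h2 : (C (↑u⁻¹ : O) : O[X]) * C (U.coeff 0) = 1 := by
    rw [← C_mul, ← hu, Units.inv_mul, C_1]
  calc -(C (↑u⁻¹ : O)) * g * X - 1
      = -(C (↑u⁻¹ : O)) * (X * g) - C (↑u⁻¹ : O) * C (U.coeff 0) := by rw [h2]; ring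
    _ = U * -(C (↑u⁻¹ : O)) := by
        conv_rhs => rw [h1]
        ring

/-- `(P) + (U) = (1)` in `O[X]` for `P` monic and `U ≡ 1` modulo `m O[X]`. -/
theorem span_sup_span_eq_top {P U : O[X]} (hP : P.Monic)
    (hU : U - 1 ∈ (maximalIdeal O).map (C : O →+* O[X])) :
    Ideal.span {P} ⊔ Ideal.span {U} = ⊤ := by
  set J : Ideal O[X] := Ideal.span {P} ⊔ Ideal.span {U} with hJ
  -- the quotient is a finite `O`-module
  have hfin : Module.Finite O (O[X] ⧸ J) := by
    have h1 : Module.Finite O (O[X] ⧸ Ideal.span {P}) := hP.finite_adjoinRoot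
    have hle : Ideal.span {P} ≤ J := le_sup_left
    exact Module.Finite.of_surjective (Ideal.Quotient.factorₐ O hle).toLinearMap
      (Ideal.Quotient.factor_surjective hle)
  -- classes of elements of `m O[X]` lie in `m • ⊤`
  have hm : ∀ q : O[X], q ∈ (maximalIdeal O).map (C : O →+* O[X]) →
      Ideal.Quotient.mk J q ∈ (maximalIdeal O) • (⊤ : Submodule O (O[X] ⧸ J)) := by
    intro q hq
    rw [Ideal.mem_map_C_iff] at hq
    rw [q.as_sum_range_C_mul_X_pow, map_sum]
    refine Submodule.sum_mem _ fun i _ => ?_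
    have h1 : Ideal.Quotient.mk J (C (q.coeff i) * X ^ i) =
        q.coeff i • Ideal.Quotient.mk J (X ^ i) := by
      rw [← Ideal.Quotient.mkₐ_eq_mk O, ← map_smul, Polynomial.smul_eq_C_mul]
    rw [h1]
    exact Submodule.smul_mem_smul (hq i) Submodule.mem_top
  have htop : (⊤ : Submodule O (O[X] ⧸ J)) ≤ (maximalIdeal O) • ⊤ := by
    intro x _
    obtain ⟨p, rfl⟩ := Ideal.Quotient.mk_surjective x
    have h1 : Ideal.Quotient.mk J p = Ideal.Quotient.mk J (p * (1 - U)) := by
      rw [Ideal.Quotient.eq]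
      have : p - p * (1 - U) = p * U := by ring
      rw [this]
      exact Ideal.mul_mem_left _ _ (Ideal.mem_sup_right (Ideal.subset_span rfl))
    rw [h1]
    apply hm
    have : p * (1 - U) = -(p * (U - 1)) := by ring
    rw [this]
    exact neg_mem (Ideal.mul_mem_left _ _ hU)
  have hbot : (⊤ : Submodule O (O[X] ⧸ J)) = ⊥ :=
    Submodule.eq_bot_of_le_smul_of_le_jacobson_bot (maximalIdeal O) ⊤ Module.Finite.fg_top htop
      (maximalIdeal_le_jacobson ⊥)
  rw [Ideal.eq_top_iff_one, ← Ideal.Quotient.eq_zero_iff_mem]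
  have : Ideal.Quotient.mk J 1 ∈ (⊤ : Submodule O (O[X] ⧸ J)) := Submodule.mem_top
  rw [hbot] at this
  exact this

variable [IsAdicComplete (maximalIdeal O) O]

/-- **Weierstrass / Hensel factorisation** of a polynomial `Q ≡ X ^ a` modulo `m`. -/
theorem exists_factor (Q : O[X]) (a : ℕ)
    (hQ : Q - X ^ a ∈ (maximalIdeal O).map (C : O →+* O[X])) :
    ∃ Q0 Qi : O[X], Q = Q0 * Qi ∧ Q0.Monic ∧ Q0.natDegree = a ∧
      Q0 - X ^ a ∈ (maximalIdeal O).map (C : O →+* O[X]) ∧
      Qi - 1 ∈ (maximalIdeal O).map (C : O →+* O[X]) := by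
  rw [sub_mem_map_C_iff, Polynomial.map_pow, Polynomial.map_X] at hQ
  -- the reduction of `Q` as a power series
  have hgmap : (Q : PowerSeries O).map (residue O) = (PowerSeries.X : PowerSeries _) ^ a := by
    rw [← Polynomial.polynomial_map_coe, hQ, Polynomial.coe_pow, Polynomial.coe_X]
  have hg : (Q : PowerSeries O).map (residue O) ≠ 0 := by
    rw [hgmap]; exact pow_ne_zero _ PowerSeries.X_ne_zero
  obtain ⟨f, h, H⟩ := (Q : PowerSeries O).exists_isWeierstrassFactorization hg
  have hfdeg : f.natDegree = a := by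
    rw [H.natDegree_eq_toNat_order_map, hgmap, PowerSeries.order_X_pow]
    rfl
  have hfmonic : f.Monic := H.isDistinguishedAt.monic
  have hfmap : f.map (residue O) = X ^ a := by
    have := H.isDistinguishedAt.map_eq_X_pow
    rw [hfdeg] at this
    exact this
  -- Weierstrass division versus polynomial division
  have hdiv : (f : PowerSeries O).IsWeierstrassDivisorAt (maximalIdeal O) :=
    H.isDistinguishedAt.isWeierstrassDivisorAt'
  have hord : ((f : PowerSeries O).map (Ideal.Quotient.mk (maximalIdeal O))).order.toNat = a := by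
    have h1 : (f : PowerSeries O).map (Ideal.Quotient.mk (maximalIdeal O)) =
        (PowerSeries.X : PowerSeries _) ^ a := by
      rw [← Polynomial.polynomial_map_coe]
      have : f.map (Ideal.Quotient.mk (maximalIdeal O)) = X ^ a := hfmap
      rw [this, Polynomial.coe_pow, Polynomial.coe_X]
    rw [h1, PowerSeries.order_X_pow]
    rfl
  have hmoddeg : (Q %ₘ f).degree < a := by
    have := Polynomial.degree_modByMonic_lt Q hfmonic
    rwa [Polynomial.degree_eq_natDegree hfmonic.ne_zero, hfdeg] at this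
  have heq : (f : PowerSeries O) * h + ((0 : O[X]) : PowerSeries O) =
      (f : PowerSeries O) * ((Q /ₘ f : O[X]) : PowerSeries O) + ((Q %ₘ f : O[X]) : PowerSeries O) := by
    rw [Polynomial.coe_zero, add_zero, ← H.eq_mul, ← Polynomial.coe_mul, ← Polynomial.coe_add,
      add_comm, Polynomial.modByMonic_add_div Q f]
  obtain ⟨-, hr⟩ := hdiv.eq_of_mul_add_eq_mul_add (r := 0) (r' := Q %ₘ f)
    (by rw [hord, Polynomial.degree_zero]; exact WithBot.bot_lt_coe _)
    (by rw [hord]; exact hmoddeg) heq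
  have hQf : Q = f * (Q /ₘ f) := by
    have := Polynomial.modByMonic_add_div Q f
    rw [← hr, zero_add] at this
    exact this.symm
  refine ⟨f, Q /ₘ f, hQf, hfmonic, hfdeg, ?_, ?_⟩
  · rw [sub_mem_map_C_iff, hfmap, Polynomial.map_pow, Polynomial.map_X]
  · rw [sub_mem_map_C_iff, Polynomial.map_one]
    have h1 : Q.map (residue O) = f.map (residue O) * (Q /ₘ f).map (residue O) := by
      rw [← Polynomial.map_mul, ← hQf]
    rw [hQ, hfmap] at h1
    have h2 : (X : (ResidueField O)[X]) ^ a ≠ 0 := pow_ne_zero _ X_ne_zero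
    exact (mul_left_cancel₀ h2 (by rw [mul_one]; exact h1)).symm

end Factor

end Fermat.Agent.T1B.Alg15
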