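/-
Fermat/Agent/T1B/Alg15/Ideals.lean  (helper15) -- programme T1B, brick T-ALG, part ALG-a (3/3).

**The algebraisation ideals.**  `O` complete local ring with maximal ideal `m`; `S0`, `S1` rings
with elements `t ∈ S0`, `s ∈ S1`, `S01 = S0[1/t] = S1[1/s]` with `t s = 1`; `S0` finite over `O[t]`;
`v ∈ S01` a non-zero-divisor with `v ≡ 1` modulo `m S01`.

* `AlgData t v`          : polynomials `Q0, Qi ∈ O[X]`, `Q0` monic of degree `a`, `Q0 ≡ X ^ a`,
                           `Qi ≡ 1` modulo `m`, with `(Q0 Qi)(t) ∈ v S01`;  `exists_algData`;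
* `AlgData.aInf`, `a0`   : the ideals `(v, Qi(t))`, `(v, Q0(t))` of `S01`: comaximal, product `(v)`,
                           invertible;
* `AlgData.b0`, `b1`     : their contractions to `S0`, `S1`: invertible ideals, extensions
                           `aInf`, `a0`, containing elements `≡ 1` modulo `m`
                           (`u0 = Qi(t)`, `u1 = s ^ a Q0(1/s)`);
* `exists_algebraisation_ideals` : the packaged existence statement for ALG-b.
-/
import Mathlib
import Fermat.Agent.T1B.Alg15.Annihilator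
import Fermat.Agent.T1B.Alg15.Factor
import Fermat.Agent.Jac.LineOps39.PatchInvertible

set_option autoImplicit false
set_option linter.unusedSectionVars false

open Polynomial IsLocalRing

universe u


noncomputable section

namespace Fermat.Agent.T1B.Alg15

open Fermat.Agent.Jac.LineOps39

/-! ### Ideal algebra -/

section IdealAlgebra

variable {R : Type u} [CommRing R]

theorem span_pair_sup_span_pair {v p q : R} (hpq : Ideal.span {p} ⊔ Ideal.span {q} = ⊤) :
    Ideal.span {v, p} ⊔ Ideal.span {v, q} = ⊤ := by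
  rw [eq_top_iff, ← hpq]
  refine sup_le_sup (Ideal.span_mono ?_) (Ideal.span_mono ?_) <;> simp

theorem span_pair_mul_span_pair' {v p q : R} (hpq : Ideal.span {p} ⊔ Ideal.span {q} = ⊤)
    (h : p * q ∈ Ideal.span {v}) :
    Ideal.span {v, p} * Ideal.span {v, q} = Ideal.span {v} := by
  apply le_antisymm
  · rw [Ideal.span_pair_mul_span_pair, Ideal.span_le]
    intro x hx
    simp only [Set.mem_insert_iff, Set.mem_singleton_iff] at hx
    rcases hx with rfl | rfl | rfl | rfl
    · exact Ideal.mul_mem_left _ _ (Ideal.subset_span rfl)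
    · exact Ideal.mul_mem_right _ _ (Ideal.subset_span rfl)
    · exact Ideal.mul_mem_left _ _ (Ideal.subset_span rfl)
    · exact h
  · rw [Ideal.span_le, Set.singleton_subset_iff]
    have h1 : (1 : R) ∈ Ideal.span {v, p} ⊔ Ideal.span {v, q} := by
      rw [span_pair_sup_span_pair hpq]; trivial
    obtain ⟨x, hx, y, hy, hxy⟩ := Submodule.mem_sup.1 h1
    have hvI : v ∈ Ideal.span {v, p} := Ideal.subset_span (by simp)
    have hvJ : v ∈ Ideal.span {v, q} := Ideal.subset_span (by simp)
    have h2 : v = x * v + v * y := by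
      rw [mul_comm x v, ← mul_add, hxy, mul_one]
    have h3 : x * v + v * y ∈ Ideal.span {v, p} * Ideal.span {v, q} :=
      Ideal.add_mem _ (Ideal.mul_mem_mul hx hvJ) (Ideal.mul_mem_mul hvI hy)
    rw [← h2] at h3
    exact h3

/-- A principal ideal generated by a non-zero-divisor is an invertible module. -/
theorem invertible_span_singleton (v : R) (hv : v ∈ nonZeroDivisors R) :
    Module.Invertible R (Ideal.span {v} : Ideal R) := by
  refine Module.Invertible.congr (LinearEquiv.ofBijective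
    ((LinearMap.toSpanSingleton R R v).codRestrict (Ideal.span {v})
      (fun r => Ideal.mem_span_singleton'.2 ⟨r, rfl⟩)) ⟨?_, ?_⟩)
  · intro r r' h
    have h1 : r * v = r' * v := congrArg Subtype.val h
    have h2 : (r - r') * v = 0 := by rw [sub_mul, h1, sub_self]
    exact sub_eq_zero.1 ((mul_right_mem_nonZeroDivisors_eq_zero_iff hv).1 h2)
  · rintro ⟨x, hx⟩
    obtain ⟨r, rfl⟩ := Ideal.mem_span_singleton'.1 hx
    exact ⟨r, rfl⟩

/-- Two comaximal ideals whose product is generated by a non-zero-divisor are invertible. -/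
theorem invertible_of_mul_eq_span_of_sup_eq_top (I J : Ideal R) (v : R)
    (hv : v ∈ nonZeroDivisors R) (hIJ : I * J = Ideal.span {v}) (hsup : I ⊔ J = ⊤) :
    Module.Invertible R I := by
  have h1 : (1 : R) ∈ I ⊔ J := by rw [hsup]; trivial
  obtain ⟨x, hx, y, hy, hxy⟩ := Submodule.mem_sup.1 h1
  have hspan : Ideal.span {x, y} = (⊤ : Ideal R) := by
    rw [Ideal.eq_top_iff_one, ← hxy]
    exact Ideal.add_mem _ (Ideal.subset_span (by simp)) (Ideal.subset_span (by simp))
  refine ideal_invertible_of_two_localizations I x y hspan (R₁ := Localization.Away x)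
    (R₂ := Localization.Away y) ?_ ?_
  · have e : I.map (algebraMap R (Localization.Away x)) = ⊤ :=
      Ideal.eq_top_of_isUnit_mem _ (Ideal.mem_map_of_mem _ hx)
        (IsLocalization.Away.algebraMap_isUnit x)
    rw [e]
    exact Module.Invertible.congr (Submodule.topEquiv (R := Localization.Away x)
      (M := Localization.Away x)).symm
  · have eJ : J.map (algebraMap R (Localization.Away y)) = ⊤ :=
      Ideal.eq_top_of_isUnit_mem _ (Ideal.mem_map_of_mem _ hy)
        (IsLocalization.Away.algebraMap_isUnit y)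
    have e : I.map (algebraMap R (Localization.Away y)) =
        Ideal.span {algebraMap R (Localization.Away y) v} := by
      have := congrArg (Ideal.map (algebraMap R (Localization.Away y))) hIJ
      rwa [Ideal.map_mul, eJ, Ideal.mul_top, Ideal.map_span, Set.image_singleton] at this
    rw [e]
    exact invertible_span_singleton _
      (IsLocalization.nonZeroDivisors_le_comap (Submonoid.powers y) (Localization.Away y) hv)

end IdealAlgebra

/-! ### The data and the ideals -/

section Data

variable {O : Type u} [CommRing O] [IsLocalRing O]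
  {S0 S1 S01 : Type u} [CommRing S0] [CommRing S1] [CommRing S01]
  [Algebra O S0] [Algebra O S1] [Algebra O S01] [Algebra S0 S01] [Algebra S1 S01]
  [IsScalarTower O S0 S01] [IsScalarTower O S1 S01]

/-- The polynomial data of the algebraisation of `v`. -/
structure AlgData (t : S0) (v : S01) where
  a : ℕ
  Q0 : O[X]
  Qi : O[X]
  monic : Q0.Monic
  natDegree_Q0 : Q0.natDegree = a
  hQ0 : Q0 - X ^ a ∈ (maximalIdeal O).map (C : O →+* O[X])
  hQi : Qi - 1 ∈ (maximalIdeal O).map (C : O →+* O[X])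
  mem_span : algebraMap S0 S01 (aeval t (Q0 * Qi)) ∈ Ideal.span {v}

/-- **Existence of the polynomial data** (determinant trick + Weierstrass factorisation). -/
theorem exists_algData [IsAdicComplete (maximalIdeal O) O] (t : S0) [IsLocalization.Away t S01]
    (hfin : (Polynomial.aeval (R := O) t).Finite) (v : S01)
    (hv1 : v - 1 ∈ (maximalIdeal O).map (algebraMap O S01)) :
    Nonempty (AlgData (O := O) t v) := by
  obtain ⟨a, Q, hQ, hmem⟩ := exists_poly_mem_span t hfin (maximalIdeal O) v hv1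
  obtain ⟨Q0, Qi, hQeq, hmonic, hdeg, hQ0, hQi⟩ := exists_factor Q a hQ
  exact ⟨⟨a, Q0, Qi, hmonic, hdeg, hQ0, hQi, by rw [← hQeq]; exact hmem⟩⟩

namespace AlgData

variable {t : S0} {v : S01} (D : AlgData (O := O) t v)

/-- `p0 = Q0(t) ∈ S01`. -/
def p0 : S01 := algebraMap S0 S01 (aeval t D.Q0)

/-- `pInf = Qi(t) ∈ S01`. -/
def pInf : S01 := algebraMap S0 S01 (aeval t D.Qi)

/-- The ideal `(v, Qi(t))` of `S01` (the part of `V(v)` near `t = ∞`). -/
def aInf : Ideal S01 := Ideal.span {v, D.pInf}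

/-- The ideal `(v, Q0(t))` of `S01` (the part of `V(v)` near `t = 0`). -/
def a0 : Ideal S01 := Ideal.span {v, D.p0}

theorem p0_mul_pInf_mem : D.p0 * D.pInf ∈ Ideal.span {v} := by
  have := D.mem_span
  rwa [map_mul, map_mul] at this

theorem span_p0_sup_span_pInf : Ideal.span {D.p0} ⊔ Ideal.span {D.pInf} = ⊤ := by
  have h := span_sup_span_eq_top D.monic D.hQi
  have h1 := congrArg (Ideal.map ((algebraMap S0 S01).comp (aeval (R := O) t).toRingHom)) h
  rw [Ideal.map_sup, Ideal.map_span, Ideal.map_span, Set.image_singleton, Set.image_singleton,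
    Ideal.map_top] at h1
  exact h1

theorem a0_sup_aInf : D.a0 ⊔ D.aInf = ⊤ :=
  span_pair_sup_span_pair D.span_p0_sup_span_pInf

theorem a0_mul_aInf : D.a0 * D.aInf = Ideal.span {v} :=
  span_pair_mul_span_pair' D.span_p0_sup_span_pInf D.p0_mul_pInf_mem

theorem aInf_mul_a0 : D.aInf * D.a0 = Ideal.span {v} := by
  rw [mul_comm]; exact D.a0_mul_aInf

theorem invertible_a0 (hv : v ∈ nonZeroDivisors S01) : Module.Invertible S01 D.a0 :=
  invertible_of_mul_eq_span_of_sup_eq_top D.a0 D.aInf v hv D.a0_mul_aInf D.a0_sup_aInf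

theorem invertible_aInf (hv : v ∈ nonZeroDivisors S01) : Module.Invertible S01 D.aInf :=
  invertible_of_mul_eq_span_of_sup_eq_top D.aInf D.a0 v hv D.aInf_mul_a0
    (by rw [sup_comm]; exact D.a0_sup_aInf)

/-! #### Chart 0 -/

/-- The ideal `b_0 = a_∞ ∩ S0` of `S0`. -/
def b0 : Ideal S0 := D.aInf.comap (algebraMap S0 S01)

/-- The element `u_0 = Qi(t)` of `b_0`, congruent to `1` modulo `m`. -/
def u0 : S0 := aeval t D.Qi

theorem u0_mem_b0 : D.u0 ∈ D.b0 := by
  show algebraMap S0 S01 (aeval t D.Qi) ∈ D.aInf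
  exact Ideal.subset_span (by simp [pInf])

/-- Evaluation at `t` maps `m O[X]` into `m S0`. -/
theorem aeval_mem_map {S : Type*} [CommRing S] [Algebra O S] (x : S) {q : O[X]}
    (hq : q ∈ (maximalIdeal O).map (C : O →+* O[X])) :
    aeval x q ∈ (maximalIdeal O).map (algebraMap O S) := by
  have h1 : (maximalIdeal O).map (C : O →+* O[X]) ≤
      ((maximalIdeal O).map (algebraMap O S)).comap (aeval (R := O) x).toRingHom := by
    rw [Ideal.map_le_iff_le_comap]
    intro a ha
    have h2 : (aeval (R := O) x).toRingHom (C a) = algebraMap O S a := aeval_C x a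
    show (aeval (R := O) x).toRingHom (C a) ∈ Ideal.map (algebraMap O S) (maximalIdeal O)
    rw [h2]
    exact Ideal.mem_map_of_mem _ ha
  exact h1 hq

theorem u0_sub_one_mem : D.u0 - 1 ∈ (maximalIdeal O).map (algebraMap O S0) := by
  have := aeval_mem_map (O := O) t D.hQi
  rwa [map_sub, map_one] at this

theorem map_b0 [IsLocalization.Away t S01] : D.b0.map (algebraMap S0 S01) = D.aInf :=
  IsLocalization.map_under (Submonoid.powers t) S01 D.aInf

/-- `t` is invertible modulo `b_0`. -/
theorem exists_mul_t_sub_one_mem_b0 : ∃ g : S0, g * t - 1 ∈ D.b0 := by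
  obtain ⟨g, hg⟩ := exists_mul_X_sub_one D.hQi
  refine ⟨aeval t g, ?_⟩
  rw [Ideal.mem_span_singleton] at hg
  obtain ⟨c, hc⟩ := hg
  have h1 : aeval t g * t - 1 = D.u0 * aeval t c := by
    have := congrArg (aeval t) hc
    rwa [map_sub, map_mul, aeval_X, map_one, map_mul] at this
  rw [h1]
  exact Ideal.mul_mem_right _ _ D.u0_mem_b0

theorem invertible_b0 [IsLocalization.Away t S01] (hv : v ∈ nonZeroDivisors S01) :
    Module.Invertible S0 D.b0 := by
  obtain ⟨g, hg⟩ := D.exists_mul_t_sub_one_mem_b0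
  exact invertible_comap_of_away t D.aInf (D.invertible_aInf hv) g hg

/-! #### Chart 1 -/

/-- The ideal `b_1 = a_0 ∩ S1` of `S1`. -/
def b1 (S1 : Type u) [CommRing S1] [Algebra S1 S01] : Ideal S1 :=
  D.a0.comap (algebraMap S1 S01)

/-- The reciprocal polynomial `X ^ a Q0(1/X)`. -/
def Q0r : O[X] := D.Q0.reflect D.a

theorem Q0r_sub_one_mem : D.Q0r - 1 ∈ (maximalIdeal O).map (C : O →+* O[X]) := by
  rw [Ideal.mem_map_C_iff]
  intro n
  have hQ0 := Ideal.mem_map_C_iff.1 D.hQ0
  rw [coeff_sub, Q0r, coeff_reflect, coeff_one]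
  by_cases hn : n = 0
  · subst hn
    rw [revAt_le (Nat.zero_le _), Nat.sub_zero, if_pos rfl]
    have : D.Q0.coeff D.a = 1 := by rw [← D.natDegree_Q0]; exact D.monic.coeff_natDegree
    rw [this, sub_self]
    exact Ideal.zero_mem _
  · rw [if_neg hn, sub_zero]
    by_cases hna : n ≤ D.a
    · rw [revAt_le hna]
      have h1 := hQ0 (D.a - n)
      rw [coeff_sub, coeff_X_pow, if_neg (by omega), sub_zero] at h1
      exact h1
    · rw [revAt, Function.Embedding.coeFn_mk, if_neg hna]
      rw [coeff_eq_zero_of_natDegree_lt (by rw [D.natDegree_Q0]; omega)]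
      exact Ideal.zero_mem _

/-- The element `u_1 = s ^ a Q0(1/s)` of `b_1`, congruent to `1` modulo `m`. -/
def u1 (s : S1) : S1 := aeval s D.Q0r

theorem u1_sub_one_mem (s : S1) : D.u1 s - 1 ∈ (maximalIdeal O).map (algebraMap O S1) := by
  have := aeval_mem_map (O := O) s D.Q0r_sub_one_mem
  rwa [map_sub, map_one] at this

theorem algebraMap_u1 (s : S1) (hts : algebraMap S0 S01 t * algebraMap S1 S01 s = 1) :
    algebraMap S1 S01 (D.u1 s) = algebraMap S1 S01 s ^ D.a * D.p0 := by
  let _ : Invertible (algebraMap S0 S01 t) := ⟨algebraMap S1 S01 s, by rw [mul_comm]; exact hts, hts⟩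
  have h1 := Polynomial.eval₂_reflect_mul_pow (algebraMap O S01) (algebraMap S0 S01 t) D.a D.Q0
    (le_of_eq D.natDegree_Q0)
  have h2 : algebraMap S1 S01 (D.u1 s) = eval₂ (algebraMap O S01) (algebraMap S1 S01 s) D.Q0r := by
    rw [u1, ← aeval_def, ← aeval_algebraMap_apply]
  have h3 : D.p0 = eval₂ (algebraMap O S01) (algebraMap S0 S01 t) D.Q0 := by
    rw [p0, ← aeval_def, ← aeval_algebraMap_apply]
  have h4 : ⅟(algebraMap S0 S01 t) = algebraMap S1 S01 s := rfl
  rw [h2, h3, ← h1, h4, Q0r, mul_comm _ (algebraMap S0 S01 t ^ D.a), ← mul_assoc, ← mul_pow,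
    mul_comm (algebraMap S1 S01 s), hts, one_pow, one_mul]

theorem u1_mem_b1 (s : S1) (hts : algebraMap S0 S01 t * algebraMap S1 S01 s = 1) :
    D.u1 s ∈ D.b1 S1 := by
  show algebraMap S1 S01 (D.u1 s) ∈ D.a0
  rw [D.algebraMap_u1 s hts]
  exact Ideal.mul_mem_left _ _ (Ideal.subset_span (by simp))

theorem map_b1 (s : S1) [IsLocalization.Away s S01] : (D.b1 S1).map (algebraMap S1 S01) = D.a0 :=
  IsLocalization.map_under (Submonoid.powers s) S01 D.a0

/-- `s` is invertible modulo `b_1`. -/
theorem exists_mul_s_sub_one_mem_b1 (s : S1)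
    (hts : algebraMap S0 S01 t * algebraMap S1 S01 s = 1) : ∃ g : S1, g * s - 1 ∈ D.b1 S1 := by
  obtain ⟨g, hg⟩ := exists_mul_X_sub_one D.Q0r_sub_one_mem
  refine ⟨aeval s g, ?_⟩
  rw [Ideal.mem_span_singleton] at hg
  obtain ⟨c, hc⟩ := hg
  have h1 : aeval s g * s - 1 = D.u1 s * aeval s c := by
    have := congrArg (aeval s) hc
    rwa [map_sub, map_mul, aeval_X, map_one, map_mul] at this
  rw [h1]
  exact Ideal.mul_mem_right _ _ (D.u1_mem_b1 s hts)

theorem invertible_b1 (s : S1) [IsLocalization.Away s S01]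
    (hts : algebraMap S0 S01 t * algebraMap S1 S01 s = 1) (hv : v ∈ nonZeroDivisors S01) :
    Module.Invertible S1 (D.b1 S1) := by
  obtain ⟨g, hg⟩ := D.exists_mul_s_sub_one_mem_b1 s hts
  exact invertible_comap_of_away s D.a0 (D.invertible_a0 hv) g hg

theorem map_b0_mul_map_b1 (s : S1) [IsLocalization.Away t S01] [IsLocalization.Away s S01] :
    D.b0.map (algebraMap S0 S01) * (D.b1 S1).map (algebraMap S1 S01) = Ideal.span {v} := by
  rw [D.map_b0, D.map_b1 s, D.aInf_mul_a0]

end AlgData

/-- **ALG-a, packaged.**  The two chart ideals of the algebraisation of `v`. -/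
theorem exists_algebraisation_ideals [IsAdicComplete (maximalIdeal O) O] (t : S0) (s : S1)
    [IsLocalization.Away t S01] [IsLocalization.Away s S01]
    (hts : algebraMap S0 S01 t * algebraMap S1 S01 s = 1)
    (hfin : (Polynomial.aeval (R := O) t).Finite) (v : S01)
    (hv1 : v - 1 ∈ (maximalIdeal O).map (algebraMap O S01)) (hv : v ∈ nonZeroDivisors S01) :
    ∃ (b0 : Ideal S0) (b1 : Ideal S1),
      Module.Invertible S0 b0 ∧ Module.Invertible S1 b1 ∧
      b0.map (algebraMap S0 S01) * b1.map (algebraMap S1 S01) = Ideal.span {v} ∧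
      (∃ u0 ∈ b0, u0 - 1 ∈ (maximalIdeal O).map (algebraMap O S0)) ∧
      (∃ u1 ∈ b1, u1 - 1 ∈ (maximalIdeal O).map (algebraMap O S1)) := by
  obtain ⟨D⟩ := exists_algData (O := O) t hfin v hv1
  exact ⟨D.b0, D.b1 S1, D.invertible_b0 hv, D.invertible_b1 s hts hv, D.map_b0_mul_map_b1 s,
    ⟨D.u0, D.u0_mem_b0, D.u0_sub_one_mem⟩, ⟨D.u1 s, D.u1_mem_b1 s hts, D.u1_sub_one_mem s⟩⟩

end Data

end Fermat.Agent.T1B.Alg15
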