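/-
Fermat/Agent/T1B/Alg15/Hub.lean  (helper15) -- programme T1B, brick T-ALG, part ALG-a, hub form.

The statements of `Alg15/Ideals.lean` for a `Jac.TwoChart O S0 S1 S01` with the finiteness
hypothesis in the `Module.AEval` form of `TwoChart.FiniteProjOverLine.fin0`.
-/
import Mathlib
import Fermat.Agent.T1B.Alg15.Ideals
import Fermat.Agent.Jac.Core

set_option autoImplicit false

open Polynomial IsLocalRing

universe u

namespace Fermat.Agent.T1B.Alg15

open Fermat.Agent.Jac

/-- Finiteness over the line: from the `Module.AEval` form to the `RingHom.Finite` form. -/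
theorem finite_aeval_of_finite_AEval {O S0 : Type*} [CommRing O] [CommRing S0] [Algebra O S0]
    (t : S0) (h : Module.Finite O[X] (Module.AEval O S0 t)) :
    (Polynomial.aeval (R := O) t).Finite := by
  let _ : Algebra O[X] S0 := (Polynomial.aeval (R := O) t).toRingHom.toAlgebra
  let e : Module.AEval O S0 t →ₗ[O[X]] S0 :=
    { toFun := (Module.AEval.of O S0 t).symm
      map_add' := map_add _
      map_smul' := fun f y => by
        obtain ⟨m, rfl⟩ := (Module.AEval.of O S0 t).surjective y
        rw [← Module.AEval.of_aeval_smul, LinearEquiv.symm_apply_apply,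
          LinearEquiv.symm_apply_apply]
        rfl }
  exact Module.Finite.of_surjective e (Module.AEval.of O S0 t).symm.surjective

variable {O : Type u} [CommRing O] [IsLocalRing O] [IsAdicComplete (maximalIdeal O) O]
  {S0 S1 S01 : Type u} [CommRing S0] [CommRing S1] [CommRing S01]
  [Algebra O S0] [Algebra O S1] [Algebra O S01] [Algebra S0 S01] [Algebra S1 S01]
  [IsScalarTower O S0 S01] [IsScalarTower O S1 S01]

/-- The polynomial data of the algebraisation of `v` on a two-chart datum. -/
theorem exists_algData_twoChart (c : TwoChart O S0 S1 S01)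
    (hfin0 : Module.Finite O[X] (Module.AEval O S0 c.t)) (v : S01)
    (hv1 : v - 1 ∈ (maximalIdeal O).map (algebraMap O S01)) :
    Nonempty (AlgData (O := O) c.t v) :=
  have := c.away0
  exists_algData c.t (finite_aeval_of_finite_AEval c.t hfin0) v hv1

/-- **ALG-a in hub form**: the two chart ideals of the algebraisation of `v ∈ 1 + m S01`. -/
theorem exists_algebraisation_ideals_twoChart (c : TwoChart O S0 S1 S01)
    (hfin0 : Module.Finite O[X] (Module.AEval O S0 c.t)) (v : S01)
    (hv1 : v - 1 ∈ (maximalIdeal O).map (algebraMap O S01)) (hv : v ∈ nonZeroDivisors S01) :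
    ∃ (b0 : Ideal S0) (b1 : Ideal S1),
      Module.Invertible S0 b0 ∧ Module.Invertible S1 b1 ∧
      b0.map (algebraMap S0 S01) * b1.map (algebraMap S1 S01) = Ideal.span {v} ∧
      (∃ u0 ∈ b0, u0 - 1 ∈ (maximalIdeal O).map (algebraMap O S0)) ∧
      (∃ u1 ∈ b1, u1 - 1 ∈ (maximalIdeal O).map (algebraMap O S1)) :=
  have := c.away0
  have := c.away1
  exists_algebraisation_ideals c.t c.s c.ts (finite_aeval_of_finite_AEval c.t hfin0) v hv1 hv

end Fermat.Agent.T1B.Alg15
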