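/-
Fermat/Agent/T1B/Alg15/Annihilator.lean  (helper15) -- programme T1B, brick T-ALG, part ALG-a (1/3).
Mathlib only.

**The determinant trick.**  `S0` a ring finite over `O[t]`, `S01 = S0[1/t]`, `m` an ideal of `O`
and `v ∈ S01` with `v ≡ 1` modulo `m S01`.  Then there are `a : ℕ` and a polynomial `Q ∈ O[X]`
with `Q ≡ X ^ a` modulo `m O[X]` and `Q(t) ∈ v S01`.

* `exists_pow_mul_eq`    : clearing denominators in `m S01`;
* `exists_poly_dvd`      : for `z ∈ m S0`: `t ^ k + z ∣ Q(t)` in `S0` with `Q ≡ X ^ (k d)` mod `m`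
                           (Cayley-Hamilton for multiplication by `z` on the finite `O[t]`-module
                           `S0`);
* `exists_poly_mem_span` : the statement above.
-/
import Mathlib

set_option autoImplicit false

open Polynomial

namespace Fermat.Agent.T1B.Alg15

section Annihilator

variable {O : Type*} [CommRing O] {S0 S01 : Type*} [CommRing S0] [CommRing S01]
  [Algebra O S0] [Algebra S0 S01] [Algebra O S01] [IsScalarTower O S0 S01]

/-- Clearing denominators: an element of `m S01` becomes an element of `m S0` after multiplication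
by a power of `t`. -/
theorem exists_pow_mul_eq (t : S0) [IsLocalization.Away t S01] (m : Ideal O) (y : S01)
    (hy : y ∈ m.map (algebraMap O S01)) :
    ∃ (k : ℕ) (z : S0), z ∈ m.map (algebraMap O S0) ∧
      algebraMap S0 S01 z = algebraMap S0 S01 t ^ k * y := by
  rw [IsScalarTower.algebraMap_eq O S0 S01, ← Ideal.map_map] at hy
  obtain ⟨⟨⟨z, hz⟩, ⟨_, k, rfl⟩⟩, h⟩ :=
    (IsLocalization.mem_map_algebraMap_iff (Submonoid.powers t) S01).1 hy
  refine ⟨k, z, hz, ?_⟩
  rw [← h, map_pow, mul_comm]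

/-- **Cayley-Hamilton step.** -/
theorem exists_poly_dvd (t : S0) (hfin : (Polynomial.aeval (R := O) t).Finite) (m : Ideal O)
    (k : ℕ) (z : S0) (hz : z ∈ m.map (algebraMap O S0)) :
    ∃ (d : ℕ) (Q : O[X]), Q - X ^ (k * d) ∈ m.map (C : O →+* O[X]) ∧ (t ^ k + z) ∣ aeval t Q := by
  let _ : Algebra O[X] S0 := (Polynomial.aeval (R := O) t).toRingHom.toAlgebra
  have _ : Module.Finite O[X] S0 := hfin
  have halg : ∀ p : O[X], algebraMap O[X] S0 p = aeval t p := fun p => rfl
  set I : Ideal O[X] := m.map (C : O →+* O[X]) with hIdef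
  -- multiplication by `z` maps `S0` into `I • S0`
  have hzI : ∀ x : S0, z * x ∈ I • (⊤ : Submodule O[X] S0) := by
    have : ∀ z ∈ Ideal.span (algebraMap O S0 '' (m : Set O)),
        ∀ x : S0, z * x ∈ I • (⊤ : Submodule O[X] S0) := by
      intro z hz
      induction hz using Submodule.span_induction with
      | mem z hz =>
        obtain ⟨a, ha, rfl⟩ := hz
        intro x
        have h1 : algebraMap O S0 a * x = (C a : O[X]) • x := by
          rw [Algebra.smul_def, halg, aeval_C]
        rw [h1]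
        exact Submodule.smul_mem_smul (Ideal.mem_map_of_mem C ha) Submodule.mem_top
      | zero => intro x; rw [zero_mul]; exact Submodule.zero_mem _
      | add z1 z2 _ _ h1 h2 => intro x; rw [add_mul]; exact Submodule.add_mem _ (h1 x) (h2 x)
      | smul r z1 _ h1 =>
        intro x
        rw [smul_eq_mul, mul_assoc, mul_left_comm]
        exact h1 (r * x)
    exact this z hz
  have hI : LinearMap.range (LinearMap.mulLeft O[X] z) ≤ I • (⊤ : Submodule O[X] S0) := by
    rintro _ ⟨x, rfl⟩
    exact hzI x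
  obtain ⟨p, hmonic, -, hcoeff, hp⟩ :=
    LinearMap.exists_monic_and_natDegree_eq_and_coeff_mem_pow_and_aeval_eq_zero O[X]
      (LinearMap.mulLeft O[X] z) I hI
  -- `p(z) = 0` in `S0`
  have hp' : aeval z p = 0 := by
    have h1 : aeval (Algebra.lmul O[X] S0 z) p = 0 := hp
    rw [aeval_algHom_apply] at h1
    have h2 := congrArg (fun φ : Module.End O[X] S0 => φ 1) h1
    simpa using h2
  set d := p.natDegree with hd
  set q : O[X] := p.eval (-X ^ k) with hq
  -- `t ^ k + z` divides `q(t)`
  have hdvd : (t ^ k + z) ∣ aeval t q := by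
    have h1 := Polynomial.sub_dvd_eval_sub z (algebraMap O[X] S0 (-X ^ k))
      (p.map (algebraMap O[X] S0))
    rw [Polynomial.eval_map_algebraMap, hp', Polynomial.eval_map_apply, zero_sub, halg, halg,
      dvd_neg] at h1
    have h2 : z - aeval t (-X ^ k : O[X]) = t ^ k + z := by
      rw [map_neg, map_pow, aeval_X]; ring
    rwa [h2] at h1
  -- `q ≡ (-1) ^ d X ^ (k d)` modulo `I`
  have hqI : q - (-X ^ k) ^ d ∈ I := by
    rw [hq, Polynomial.eval_eq_sum_range, Finset.sum_range_succ, ← hd,
      show p.coeff d = 1 from hmonic.coeff_natDegree, one_mul, add_sub_cancel_right]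
    refine Ideal.sum_mem _ fun i hi => Ideal.mul_mem_right _ _ ?_
    have hi' : i < d := Finset.mem_range.1 hi
    exact Ideal.pow_le_self (Nat.sub_ne_zero_of_lt hi') (hcoeff i)
  refine ⟨d, (-1) ^ d * q, ?_, ?_⟩
  · have h1 : (-1 : O[X]) ^ d * q - X ^ (k * d) = (-1) ^ d * (q - (-X ^ k) ^ d) := by
      have h2 : ((-1 : O[X]) ^ d) * ((-1) ^ d) = 1 := by
        rw [← mul_pow]; norm_num
      rw [mul_sub, neg_pow (X ^ k : O[X]) d, ← mul_assoc, h2, one_mul, pow_mul]
    rw [h1]
    exact Ideal.mul_mem_left _ _ hqI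
  · rw [map_mul]
    exact Dvd.dvd.mul_left hdvd _

/-- **The determinant trick**: a polynomial `Q ≡ X ^ a` modulo `m` with `Q(t) ∈ v S01`. -/
theorem exists_poly_mem_span (t : S0) [IsLocalization.Away t S01]
    (hfin : (Polynomial.aeval (R := O) t).Finite) (m : Ideal O) (v : S01)
    (hv : v - 1 ∈ m.map (algebraMap O S01)) :
    ∃ (a : ℕ) (Q : O[X]), Q - X ^ a ∈ m.map (C : O →+* O[X]) ∧
      algebraMap S0 S01 (aeval t Q) ∈ Ideal.span {v} := by
  obtain ⟨k, z, hz, hzk⟩ := exists_pow_mul_eq t m (v - 1) hv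
  obtain ⟨d, Q, hQ, hdvd⟩ := exists_poly_dvd t hfin m k z hz
  refine ⟨k * d, Q, hQ, ?_⟩
  rw [Ideal.mem_span_singleton]
  have h1 : algebraMap S0 S01 (t ^ k + z) = algebraMap S0 S01 t ^ k * v := by
    rw [map_add, hzk, map_pow]; ring
  have h2 := map_dvd (algebraMap S0 S01) hdvd
  rw [h1] at h2
  exact (Dvd.intro_left _ rfl).trans h2

end Annihilator

end Fermat.Agent.T1B.Alg15
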